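import Fermat.Agent.LandauFunction.PrimeSum
import Mathlib.Algebra.GCDMonoid.FinsetLemmas
import Mathlib.Analysis.SpecialFunctions.Log.Monotone
import Mathlib.GroupTheory.Perm.Cycle.PossibleTypes

/-!
# Landau's function

The logarithm of the largest order of a permutation of `n` letters is asymptotic to
`√(n log n)`.
-/

set_option autoImplicit false

noncomputable section

open Finset Filter Topology

namespace FA.LandauFunction

/-- **Landau's function**: the largest order of a permutation of `n` letters. -/
def maxOrder (n : ℕ) : ℕ := (univ : Finset (Equiv.Perm (Fin n))).sup orderOf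

/-- The sum of the prime power parts. -/
def partSum (N : ℕ) : ℕ := ∑ l ∈ N.primeFactors, l ^ N.factorization l

theorem partSum_le {N : ℕ} (hN : N ≠ 0) : partSum N ≤ N := by
  have key : ∀ s : Finset ℕ, ∀ f : ℕ → ℕ, (∀ i ∈ s, 2 ≤ f i) →
      ∑ i ∈ s, f i ≤ ∏ i ∈ s, f i := by
    intro s f
    induction s using Finset.induction_on with
    | empty => simp
    | insert i s hi ih =>
      intro h
      rw [sum_insert hi, prod_insert hi]
      have h1 := ih fun j hj => h j (mem_insert_of_mem hj)
      have h2 := h i (mem_insert_self i s)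
      rcases s.eq_empty_or_nonempty with rfl | ⟨j, hj⟩
      · simp
      · have h3 : 2 ≤ ∏ k ∈ s, f k := (h j (mem_insert_of_mem hj)).trans
          (Finset.single_le_prod' (fun k hk => by
            have := h k (mem_insert_of_mem hk)
            omega) hj)
        nlinarith
  calc partSum N ≤ ∏ l ∈ N.primeFactors, l ^ N.factorization l := key _ _ fun l hl =>
        (Nat.prime_of_mem_primeFactors hl).two_le.trans (Nat.le_self_pow
          (Finsupp.mem_support_iff.1 (by rwa [Nat.support_factorization])) l)
    _ = N := by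
        conv_rhs => rw [← Nat.prod_factorization_pow_eq_self hN]
        rw [Finsupp.prod, Nat.support_factorization]

theorem partSum_lcm_le {a b : ℕ} (ha : a ≠ 0) (hb : b ≠ 0) :
    partSum (Nat.lcm a b) ≤ partSum a + partSum b := by
  have hsupp : (Nat.lcm a b).primeFactors = a.primeFactors ∪ b.primeFactors := by
    ext l
    simp only [← Nat.support_factorization, Finset.mem_union, Finsupp.mem_support_iff,
      Nat.factorization_lcm ha hb, Finsupp.sup_apply]
    omega
  unfold partSum
  rw [hsupp]
  calc ∑ l ∈ a.primeFactors ∪ b.primeFactors, l ^ (Nat.lcm a b).factorization l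
      ≤ ∑ l ∈ a.primeFactors ∪ b.primeFactors,
          ((if l ∈ a.primeFactors then l ^ a.factorization l else 0) +
            if l ∈ b.primeFactors then l ^ b.factorization l else 0) := by
        refine sum_le_sum fun l hl => ?_
        rw [Nat.factorization_lcm ha hb, Finsupp.sup_apply]
        have hza : l ∉ a.primeFactors → a.factorization l = 0 := fun h =>
          Finsupp.notMem_support_iff.1 (by rwa [Nat.support_factorization])
        have hzb : l ∉ b.primeFactors → b.factorization l = 0 := fun h =>
          Finsupp.notMem_support_iff.1 (by rwa [Nat.support_factorization])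
        split_ifs with h1 h2 h2
        · rcases le_total (a.factorization l) (b.factorization l) with h | h
          · rw [sup_eq_right.2 h]; exact Nat.le_add_left _ _
          · rw [sup_eq_left.2 h]; exact Nat.le_add_right _ _
        · rw [hzb h2, sup_eq_left.2 (Nat.zero_le _), add_zero]
        · rw [hza h1, sup_eq_right.2 (Nat.zero_le _), zero_add]
        · simp only [Finset.mem_union] at hl
          exact absurd hl (by tauto)
    _ = _ := by
        rw [sum_add_distrib, sum_ite_mem, sum_ite_mem, union_inter_cancel_left,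
          union_inter_cancel_right]

theorem partSum_multiset_lcm_le (m : Multiset ℕ) (hm : ∀ c ∈ m, c ≠ 0) :
    m.lcm ≠ 0 ∧ partSum m.lcm ≤ m.sum := by
  induction m using Multiset.induction_on with
  | empty => simp [partSum]
  | cons c m ih =>
    obtain ⟨h1, h2⟩ := ih fun d hd => hm d (Multiset.mem_cons_of_mem hd)
    have hc := hm c (Multiset.mem_cons_self c m)
    rw [Multiset.lcm_cons, Multiset.sum_cons, lcm_eq_nat_lcm]
    exact ⟨Nat.lcm_ne_zero hc h1,
      (partSum_lcm_le hc h1).trans (Nat.add_le_add (partSum_le hc) h2)⟩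

theorem log_div_antitone {x y : ℝ} (hx : 3 ≤ x) (hxy : x ≤ y) :
    Real.log y / y ≤ Real.log x / x :=
  Real.log_div_self_antitoneOn (show Real.exp 1 ≤ x by linarith [Real.exp_one_lt_d9])
    (show Real.exp 1 ≤ y by linarith [Real.exp_one_lt_d9]) hxy

/-- The upper bound by a multiplier. -/
theorem log_le_multiplier {N n : ℕ} (hN : N ≠ 0) (hn : partSum N ≤ n) {x : ℝ} (hx : 4 ≤ x) :
    Real.log N ≤ Real.log x / x * n + Chebyshev.theta x - Real.log x / x * primeSum x +
      (Real.sqrt x + 1) * Real.log x := by
  set t := Real.log x / x with ht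
  have hlx : 0 < Real.log x := Real.log_pos (by linarith)
  have ht0 : 0 ≤ t := by positivity
  have hpos : ∀ p ∈ primeSet x, 0 ≤ Real.log p - t * p := by
    intro p hp
    obtain ⟨h1, h2⟩ := (mem_primeSet (by linarith)).1 hp
    have hp0 : (0 : ℝ) < p := Nat.cast_pos.2 h1.pos
    have key : t ≤ Real.log p / p := by
      rcases (show p = 2 ∨ 3 ≤ p by have := h1.two_le; omega) with rfl | h3
      · refine (log_div_antitone (x := 4) (by norm_num) hx).trans (le_of_eq ?_)
        rw [show (4 : ℝ) = 2 ^ 2 by norm_num, Real.log_pow]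
        push_cast
        ring
      · exact log_div_antitone (by exact_mod_cast h3) h2
    rwa [le_div_iff₀ hp0, ← sub_nonneg] at key
  have hterm : ∀ l ∈ N.primeFactors,
      Real.log ((l ^ N.factorization l : ℕ) : ℝ) - t * ((l ^ N.factorization l : ℕ) : ℝ) ≤
        (if (l : ℝ) ≤ Real.sqrt x then Real.log x else 0) +
          if (l : ℝ) ≤ x then Real.log l - t * l else 0 := by
    intro l hl
    have hlp := Nat.prime_of_mem_primeFactors hl
    have he : N.factorization l ≠ 0 :=
      Finsupp.mem_support_iff.1 (by rwa [Nat.support_factorization])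
    set q : ℕ := l ^ N.factorization l with hq
    have hl2 : (2 : ℝ) ≤ l := by exact_mod_cast hlp.two_le
    have hlq : (l : ℝ) ≤ q := by exact_mod_cast Nat.le_self_pow he l
    have hsec : 0 ≤ if (l : ℝ) ≤ x then Real.log l - t * l else 0 := by
      split_ifs with h
      · exact hpos l ((mem_primeSet (by linarith)).2 ⟨hlp, h⟩)
      · exact le_rfl
    have hfst : 0 ≤ if (l : ℝ) ≤ Real.sqrt x then Real.log x else 0 := by
      split_ifs <;> linarith
    rcases le_or_gt (q : ℝ) x with hqx | hqx
    · rcases (show N.factorization l = 1 ∨ 2 ≤ N.factorization l by omega) with h1 | h2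
      · have hql : q = l := by rw [hq, h1, pow_one]
        rw [hql, if_pos (hlq.trans hqx)]
        linarith
      · have hsq : (l : ℝ) ≤ Real.sqrt x := by
          refine Real.le_sqrt_of_sq_le (le_trans ?_ hqx)
          exact_mod_cast Nat.pow_le_pow_right hlp.pos h2
        have := Real.log_le_log (by linarith : (0 : ℝ) < q) hqx
        have : 0 ≤ t * q := mul_nonneg ht0 (Nat.cast_nonneg q)
        rw [if_pos hsq]
        linarith
    · have h3 := log_div_antitone (x := x) (by linarith) hqx.le
      rw [← ht, div_le_iff₀ (by linarith)] at h3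
      linarith
  have hlog : Real.log N = ∑ l ∈ N.primeFactors, Real.log ((l ^ N.factorization l : ℕ) : ℝ) := by
    rw [← Real.log_prod fun l hl => Nat.cast_ne_zero.2
      (pow_ne_zero _ (Nat.prime_of_mem_primeFactors hl).ne_zero), ← Nat.cast_prod]
    congr 2
    conv_lhs => rw [← Nat.prod_factorization_pow_eq_self hN]
    rw [Finsupp.prod, Nat.support_factorization]
  have hq_sum : ∑ l ∈ N.primeFactors, t * ((l ^ N.factorization l : ℕ) : ℝ) ≤ t * n := by
    rw [← mul_sum, ← Nat.cast_sum]
    exact mul_le_mul_of_nonneg_left (Nat.cast_le.2 hn) ht0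
  have hA : ∑ l ∈ N.primeFactors, (if (l : ℝ) ≤ Real.sqrt x then Real.log x else 0) ≤
      (Real.sqrt x + 1) * Real.log x := by
    rw [← sum_filter, sum_const, nsmul_eq_mul]
    refine mul_le_mul_of_nonneg_right ?_ hlx.le
    refine le_trans
      (Nat.cast_le.2 (card_le_card (t := range (⌊Real.sqrt x⌋₊ + 1)) fun l hl => ?_)) ?_
    · exact mem_range.2 (Nat.lt_succ_of_le (Nat.le_floor (mem_filter.1 hl).2))
    · rw [card_range]
      push_cast
      linarith [Nat.floor_le (Real.sqrt_nonneg x)]
  have hB : ∑ l ∈ N.primeFactors, (if (l : ℝ) ≤ x then Real.log l - t * l else 0) ≤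
      Chebyshev.theta x - t * primeSum x := by
    rw [← sum_filter, theta_eq, primeSum, mul_sum, ← sum_sub_distrib]
    refine sum_le_sum_of_subset_of_nonneg (fun l hl => ?_) fun p hp _ => hpos p hp
    exact (mem_primeSet (by linarith)).2
      ⟨Nat.prime_of_mem_primeFactors (mem_filter.1 hl).1, (mem_filter.1 hl).2⟩
  have hall := sum_le_sum hterm
  rw [sum_sub_distrib, sum_add_distrib, ← hlog] at hall
  linarith

theorem log_maxOrder_le (n : ℕ) {x : ℝ} (hx : 4 ≤ x) :
    Real.log (maxOrder n) ≤ Real.log x / x * n + Chebyshev.theta x -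
      Real.log x / x * primeSum x + (Real.sqrt x + 1) * Real.log x := by
  obtain ⟨σ, -, hσ⟩ :=
    exists_mem_eq_sup (univ : Finset (Equiv.Perm (Fin n))) univ_nonempty orderOf
  rw [maxOrder, hσ, ← Equiv.Perm.lcm_cycleType]
  obtain ⟨h1, h2⟩ := partSum_multiset_lcm_le σ.cycleType fun c hc => by
    have := Equiv.Perm.two_le_of_mem_cycleType hc
    omega
  exact log_le_multiplier h1
    (h2.trans (σ.sum_cycleType_le.trans_eq (Fintype.card_fin n))) hx

theorem theta_le_log_maxOrder {n : ℕ} {x : ℝ} (hx : 0 ≤ x) (hS : primeSum x ≤ n) :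
    Chebyshev.theta x ≤ Real.log (maxOrder n) := by
  have hprime : ∀ p ∈ primeSet x, p.Prime := fun p hp => ((mem_primeSet hx).1 hp).1
  obtain ⟨σ, hσ⟩ := (Equiv.Perm.exists_with_cycleType_iff (α := Fin n)
    (m := (primeSet x).val)).2 ⟨by
      rw [Fintype.card_fin, show (primeSet x).val.sum = ∑ p ∈ primeSet x, p by
        rw [Finset.sum, Multiset.map_id']]
      rw [primeSum, ← Nat.cast_sum] at hS
      exact_mod_cast hS, fun p hp => (hprime p hp).two_le⟩
  have hprod : orderOf σ = ∏ p ∈ primeSet x, p := by
    rw [← σ.lcm_cycleType, hσ, ← Finset.lcm_eq_prod (f := fun p : ℕ => p) fun p hp q hq hpq =>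
      (Nat.coprime_primes (hprime p hp) (hprime q hq)).2 hpq, Finset.lcm_def, Multiset.map_id']
  rw [theta_eq, ← Real.log_prod fun p hp => Nat.cast_ne_zero.2 (hprime p hp).ne_zero,
    ← Nat.cast_prod, ← hprod]
  exact Real.log_le_log (Nat.cast_pos.2 (orderOf_pos σ))
    (Nat.cast_le.2 (le_sup (mem_univ σ)))

/-- The scale `√(n log n)`. -/
def scale (n : ℕ) : ℝ := Real.sqrt (n * Real.log n)

theorem tendsto_scale : Tendsto scale atTop atTop :=
  Real.tendsto_sqrt_atTop.comp (tendsto_natCast_atTop_atTop.atTop_mul_atTop₀
    (Real.tendsto_log_atTop.comp tendsto_natCast_atTop_atTop))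

theorem tendsto_log_scale_div {c : ℝ} (hc : 0 < c) :
    Tendsto (fun n : ℕ => Real.log (c * scale n) / Real.log n) atTop (𝓝 (1 / 2)) := by
  have hl : Tendsto (fun n : ℕ => Real.log n) atTop atTop :=
    Real.tendsto_log_atTop.comp tendsto_natCast_atTop_atTop
  have hll : Tendsto (fun n : ℕ => Real.log (Real.log n) / Real.log n) atTop (𝓝 0) :=
    (Real.isLittleO_log_id_atTop.tendsto_div_nhds_zero).comp hl
  have h := ((hl.inv_tendsto_atTop.const_mul (Real.log c)).add (hll.const_mul (1 / 2))).add_const
    (1 / 2 : ℝ)
  rw [mul_zero, mul_zero, zero_add, zero_add] at h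
  refine h.congr' ?_
  filter_upwards [hl.eventually_gt_atTop 0, eventually_gt_atTop 1] with n h1 h2
  have hn : (0 : ℝ) < n := by exact_mod_cast (show 0 < n by omega)
  rw [scale, Real.log_mul hc.ne' (Real.sqrt_pos.2 (by positivity)).ne',
    Real.log_sqrt (by positivity), Real.log_mul hn.ne' h1.ne', Pi.inv_apply]
  field_simp
  ring

/-- **Landau's theorem.** -/
theorem tendsto_log_maxOrder :
    Tendsto (fun n : ℕ => Real.log (maxOrder n) / Real.sqrt (n * Real.log n)) atTop (𝓝 1) := by
  have hR0 : ∀ᶠ n : ℕ in atTop, 1 < scale n ∧ 1 < n :=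
    (tendsto_scale.eventually_gt_atTop 1).and (eventually_gt_atTop 1)
  have hsq : ∀ᶠ n : ℕ in atTop, scale n ^ 2 = n * Real.log n ∧ 0 < Real.log n := by
    filter_upwards [eventually_gt_atTop 1] with n hn
    have h1 : 0 < Real.log n := Real.log_pos (by exact_mod_cast hn)
    exact ⟨Real.sq_sqrt (by positivity), h1⟩
  -- the upper limit
  have hS : Tendsto (fun n : ℕ => Real.log (scale n) * primeSum (scale n) / scale n ^ 2) atTop
      (𝓝 (1 / 2)) := by
    simpa [Function.comp_def, mul_comm] using tendsto_primeSum.comp tendsto_scale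
  have hlog : Tendsto (fun n : ℕ => Real.log (scale n) / Real.log n) atTop (𝓝 (1 / 2)) := by
    simpa using tendsto_log_scale_div one_pos
  have hsmall : Tendsto (fun n : ℕ => (Real.sqrt (scale n) + 1) * Real.log (scale n) / scale n)
      atTop (𝓝 0) := by
    have h1 := (isLittleO_log_rpow_atTop
      (show (0 : ℝ) < 1 / 2 by norm_num)).tendsto_div_nhds_zero.comp tendsto_scale
    have h2 := (Real.isLittleO_log_id_atTop.tendsto_div_nhds_zero).comp tendsto_scale
    have h3 := h1.add h2
    rw [add_zero] at h3
    refine h3.congr' (hR0.mono fun n hn => ?_)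
    have hs : 0 < Real.sqrt (scale n) := Real.sqrt_pos.2 (by linarith)
    have he := Real.mul_self_sqrt (by linarith : 0 ≤ scale n)
    simp only [Function.comp, id]
    rw [← Real.sqrt_eq_rpow]
    generalize Real.sqrt (scale n) = s at *
    rw [← he]
    field_simp
  have hupper : Tendsto (fun n : ℕ => Real.log (scale n) / Real.log n +
      Chebyshev.theta (scale n) / scale n -
        Real.log (scale n) * primeSum (scale n) / scale n ^ 2 +
      (Real.sqrt (scale n) + 1) * Real.log (scale n) / scale n) atTop (𝓝 1) := by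
    have h := ((hlog.add (PNT.Summary.tendsto_theta.comp tendsto_scale)).sub hS).add hsmall
    norm_num at h
    exact h
  rw [tendsto_order]
  constructor
  · -- lower bound
    intro r hr
    set c := max ((r + 1) / 2) (1 / 2) with hc
    have hc0 : 0 < c := lt_of_lt_of_le (by norm_num) (le_max_right _ _)
    have hrc : r < c := lt_of_lt_of_le (by linarith) (le_max_left _ _)
    have hc1 : c < 1 := max_lt (by linarith) (by norm_num)
    have hcs := tendsto_scale.const_mul_atTop hc0
    have hS' : Tendsto (fun n : ℕ => primeSum (c * scale n) * Real.log (c * scale n) /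
        (c * scale n) ^ 2 * c ^ 2 / (Real.log (c * scale n) / Real.log n)) atTop (𝓝 (c ^ 2)) := by
      have h := ((tendsto_primeSum.comp hcs).mul_const (c ^ 2)).div (tendsto_log_scale_div hc0)
        (by norm_num)
      rw [show 1 / 2 * c ^ 2 / (1 / 2) = c ^ 2 by ring] at h
      exact h
    have hθ : Tendsto (fun n : ℕ => Chebyshev.theta (c * scale n) / scale n) atTop (𝓝 c) :=
      (tendsto_theta_mul hc0.le).comp tendsto_scale
    filter_upwards [hS'.eventually_lt_const (show c ^ 2 < 1 by nlinarith),
      hθ.eventually_const_lt hrc, hR0, hsq, hcs.eventually_gt_atTop 1] with n h1 h2 hn hq hx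
    have hl : 0 < Real.log (c * scale n) := Real.log_pos hx
    have hfit : primeSum (c * scale n) ≤ n := by
      rw [mul_pow, hq.1] at h1
      field_simp [hl.ne', hq.2.ne'] at h1
      have hn' : (0 : ℝ) < n := Nat.cast_pos.2 (by omega)
      rw [div_lt_one hn'] at h1
      linarith
    exact lt_of_lt_of_le h2 (div_le_div_of_nonneg_right
      (theta_le_log_maxOrder (by positivity) hfit) (by linarith))
  · intro r hr
    filter_upwards [hupper.eventually_lt_const hr, tendsto_scale.eventually_ge_atTop 4, hsq,
      hR0] with n h1 h4 hq hn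
    refine lt_of_le_of_lt ?_ h1
    show Real.log (maxOrder n) / scale n ≤ _
    refine le_trans (div_le_div_of_nonneg_right (log_maxOrder_le n h4) (by linarith)) (le_of_eq ?_)
    have hne : scale n ≠ 0 := by linarith
    have hln : Real.log n ≠ 0 := hq.2.ne'
    have hn' : (n : ℝ) ≠ 0 := Nat.cast_ne_zero.2 (by omega)
    have e : (n : ℝ) / scale n ^ 2 = 1 / Real.log n := by
      rw [hq.1]
      field_simp
    rw [show Real.log (scale n) / Real.log n = Real.log (scale n) * (n / scale n ^ 2) by
      rw [e]; ring]
    field_simp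

end FA.LandauFunction

end
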