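import Fermat.Agent.Root.SummaryPrimeNumberTheorem
import Mathlib.Analysis.SpecialFunctions.Pow.Asymptotics

/-!
# The sum of the primes up to `x`

From `θ x ∼ x` one gets `∑ p log p ∼ x ^ 2 / 2` and `∑ p ∼ x ^ 2 / (2 log x)`.
-/

set_option autoImplicit false

noncomputable section

open Finset Filter Topology

namespace FA.LandauFunction

/-- The primes up to `x`. -/
def primeSet (x : ℝ) : Finset ℕ := (Ioc 0 ⌊x⌋₊).filter Nat.Prime

/-- `∑ p` over the primes `p ≤ x`. -/
def primeSum (x : ℝ) : ℝ := ∑ p ∈ primeSet x, (p : ℝ)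

/-- `∑ p log p` over the primes `p ≤ x`. -/
def weightedSum (x : ℝ) : ℝ := ∑ p ∈ primeSet x, (p : ℝ) * Real.log p

theorem theta_eq (x : ℝ) : Chebyshev.theta x = ∑ p ∈ primeSet x, Real.log p := rfl

theorem primeSet_mono {a b : ℝ} (hab : a ≤ b) : primeSet a ⊆ primeSet b :=
  filter_subset_filter _ (Ioc_subset_Ioc_right (Nat.floor_le_floor hab))

theorem mem_primeSet {x : ℝ} (hx : 0 ≤ x) {p : ℕ} :
    p ∈ primeSet x ↔ p.Prime ∧ (p : ℝ) ≤ x := by
  rw [primeSet, mem_filter, mem_Ioc, Nat.le_floor_iff hx]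
  exact ⟨fun h => ⟨h.2, h.1.2⟩, fun h => ⟨⟨h.1.pos, h.2⟩, h.1⟩⟩

theorem primeSum_nonneg (x : ℝ) : 0 ≤ primeSum x := sum_nonneg fun p _ => Nat.cast_nonneg p

theorem weightedSum_sub_bounds {a b : ℝ} (ha : 0 ≤ a) (hab : a ≤ b) :
    a * (Chebyshev.theta b - Chebyshev.theta a) ≤ weightedSum b - weightedSum a ∧
      weightedSum b - weightedSum a ≤ b * (Chebyshev.theta b - Chebyshev.theta a) := by
  rw [weightedSum, weightedSum, theta_eq, theta_eq,
    ← sum_sdiff_eq_sub (primeSet_mono hab), ← sum_sdiff_eq_sub (primeSet_mono hab),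
    mul_sum, mul_sum]
  constructor <;> refine sum_le_sum fun p hp => ?_
  all_goals
    rw [Finset.mem_sdiff, mem_primeSet (ha.trans hab), mem_primeSet ha] at hp
    have hl : 0 ≤ Real.log p := Real.log_natCast_nonneg p
  · exact mul_le_mul_of_nonneg_right (not_le.1 fun h => hp.2 ⟨hp.1.1, h⟩).le hl
  · exact mul_le_mul_of_nonneg_right hp.1.2 hl

theorem tendsto_theta_mul {c : ℝ} (hc : 0 ≤ c) :
    Tendsto (fun x => Chebyshev.theta (c * x) / x) atTop (𝓝 c) := by
  rcases hc.eq_or_lt with rfl | hc'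
  · simp [Chebyshev.theta_zero]
  · have h := (PNT.Summary.tendsto_theta.comp (tendsto_id.const_mul_atTop hc')).const_mul c
    rw [mul_one] at h
    refine h.congr' ((eventually_gt_atTop 0).mono fun x hx => ?_)
    simp only [Function.comp, id]
    field_simp

/-- `∑_{p ≤ x} p log p ∼ x ^ 2 / 2`. -/
theorem tendsto_weightedSum :
    Tendsto (fun x => weightedSum x / x ^ 2) atTop (𝓝 (1 / 2)) := by
  have hstep : ∀ K : ℕ, 0 < K → ∀ j : ℕ,
      Tendsto (fun x => (Chebyshev.theta ((j + 1 : ℕ) / (K : ℝ) * x) -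
        Chebyshev.theta ((j : ℝ) / K * x)) / x) atTop (𝓝 (1 / K)) := fun K hK j => by
    have h := (tendsto_theta_mul (c := ((j + 1 : ℕ) : ℝ) / K) (by positivity)).sub
      (tendsto_theta_mul (c := (j : ℝ) / K) (by positivity))
    rw [show ((j + 1 : ℕ) : ℝ) / K - (j : ℝ) / K = 1 / K by push_cast; ring] at h
    simpa only [← sub_div] using h
  have hid : ∀ K : ℕ, ∑ j ∈ range K, (j : ℝ) = ((K : ℝ) * (K - 1)) / 2 := fun K => by
    induction K with
    | zero => simp
    | succ K ih => rw [sum_range_succ, ih]; push_cast; ring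
  have htel : ∀ (K : ℕ) (x : ℝ), 0 < K →
      weightedSum x = ∑ j ∈ range K,
        (weightedSum ((j + 1 : ℕ) / (K : ℝ) * x) - weightedSum ((j : ℝ) / K * x)) :=
    fun K x hK => by
    rw [sum_range_sub (fun j : ℕ => weightedSum ((j : ℝ) / K * x)),
      div_self (by positivity), one_mul]
    simp [weightedSum, primeSet]
  rw [tendsto_order]
  constructor
  · intro r hr
    obtain ⟨K, hK⟩ := exists_nat_gt (1 / (1 / 2 - r))
    have hK0 : (0 : ℝ) < K := lt_trans (div_pos one_pos (by linarith)) hK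
    have hlim := tendsto_finsetSum (range K) fun j _ =>
      (hstep K (by exact_mod_cast hK0) j).const_mul ((j : ℝ) / K)
    rw [show ∑ j ∈ range K, (j : ℝ) / K * (1 / K) = 1 / 2 - 1 / (2 * K) by
      rw [← sum_mul, ← sum_div, hid]; field_simp] at hlim
    have hr' : r < 1 / 2 - 1 / (2 * (K : ℝ)) := by
      rw [div_lt_iff₀ (by linarith)] at hK
      have : 1 / (2 * (K : ℝ)) < 1 / 2 - r := by rw [div_lt_iff₀ (by positivity)]; nlinarith
      linarith
    filter_upwards [hlim.eventually_const_lt hr', eventually_gt_atTop 0] with x hx hx0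
    refine hx.trans_le ?_
    rw [htel K x (by exact_mod_cast hK0), sum_div]
    refine sum_le_sum fun j _ => ?_
    have h := (weightedSum_sub_bounds (show 0 ≤ (j : ℝ) / K * x by positivity)
      (show (j : ℝ) / K * x ≤ ((j + 1 : ℕ) : ℝ) / K * x by push_cast; gcongr; linarith)).1
    rw [le_div_iff₀ (by positivity)]
    refine le_trans (le_of_eq ?_) h
    field_simp
  · intro r hr
    obtain ⟨K, hK⟩ := exists_nat_gt (1 / (r - 1 / 2))
    have hK0 : (0 : ℝ) < K := lt_trans (div_pos one_pos (by linarith)) hK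
    have hlim := tendsto_finsetSum (range K) fun j _ =>
      (hstep K (by exact_mod_cast hK0) j).const_mul (((j + 1 : ℕ) : ℝ) / K)
    rw [show ∑ j ∈ range K, ((j + 1 : ℕ) : ℝ) / K * (1 / K) = 1 / 2 + 1 / (2 * K) by
      push_cast
      rw [← sum_mul, ← sum_div, sum_add_distrib, hid, sum_const, card_range, nsmul_eq_mul]
      field_simp
      ring] at hlim
    have hr' : 1 / 2 + 1 / (2 * (K : ℝ)) < r := by
      rw [div_lt_iff₀ (by linarith)] at hK
      have : 1 / (2 * (K : ℝ)) < r - 1 / 2 := by rw [div_lt_iff₀ (by positivity)]; nlinarith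
      linarith
    filter_upwards [hlim.eventually_lt_const hr', eventually_gt_atTop 0] with x hx hx0
    refine lt_of_le_of_lt ?_ hx
    rw [htel K x (by exact_mod_cast hK0), sum_div]
    refine sum_le_sum fun j _ => ?_
    have h := (weightedSum_sub_bounds (show 0 ≤ (j : ℝ) / K * x by positivity)
      (show (j : ℝ) / K * x ≤ ((j + 1 : ℕ) : ℝ) / K * x by push_cast; gcongr; linarith)).2
    rw [div_le_iff₀ (by positivity)]
    refine h.trans (le_of_eq ?_)
    field_simp

/-- **`∑_{p ≤ x} p ∼ x ^ 2 / (2 log x)`.** -/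
theorem tendsto_primeSum :
    Tendsto (fun x => primeSum x * Real.log x / x ^ 2) atTop (𝓝 (1 / 2)) := by
  have hll : Tendsto (fun x => Real.log (Real.log x) / Real.log x) atTop (𝓝 0) :=
    (Real.isLittleO_log_id_atTop.tendsto_div_nhds_zero).comp Real.tendsto_log_atTop
  have hinv : Tendsto (fun x : ℝ => (Real.log x)⁻¹) atTop (𝓝 0) :=
    Real.tendsto_log_atTop.inv_tendsto_atTop
  have hlx : Tendsto (fun x : ℝ => x⁻¹) atTop (𝓝 0) := tendsto_inv_atTop_zero
  have hup : Tendsto (fun x => weightedSum x / x ^ 2 * (1 - Real.log (Real.log x) / Real.log x)⁻¹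
      + (Real.log x)⁻¹ + x⁻¹) atTop (𝓝 (1 / 2)) := by
    have h := ((tendsto_weightedSum.mul ((hll.const_sub 1).inv₀ (by norm_num))).add hinv).add hlx
    simpa using h
  refine tendsto_of_tendsto_of_tendsto_of_le_of_le' tendsto_weightedSum hup ?_ ?_
  · filter_upwards [eventually_gt_atTop 1] with x hx
    refine div_le_div_of_nonneg_right ?_ (sq_nonneg x)
    rw [weightedSum, primeSum, sum_mul]
    refine sum_le_sum fun p hp => mul_le_mul_of_nonneg_left ?_ (Nat.cast_nonneg p)
    obtain ⟨h1, h2⟩ := (mem_primeSet (by linarith)).1 hp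
    exact Real.log_le_log (Nat.cast_pos.2 h1.pos) h2
  · filter_upwards [Real.tendsto_log_atTop.eventually_gt_atTop 1, eventually_gt_atTop 1,
      hll.eventually_lt_const (show (0 : ℝ) < 1 by norm_num)] with x hl hx hq
    set y := x / Real.log x with hy
    have hy0 : 0 < y := by positivity
    have hyx : y ≤ x := div_le_self (by linarith) hl.le
    have hlogy : Real.log y = Real.log x * (1 - Real.log (Real.log x) / Real.log x) := by
      rw [hy, Real.log_div (by linarith) (by linarith), mul_sub, mul_one,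
        mul_div_cancel₀ _ (by linarith : Real.log x ≠ 0)]
    have hlogy0 : 0 < Real.log y := by
      rw [hlogy]
      exact mul_pos (by linarith) (by linarith)
    have h1 : primeSum y ≤ (y + 1) * y := by
      refine (sum_le_card_nsmul _ _ y fun p hp => ((mem_primeSet hy0.le).1 hp).2).trans ?_
      rw [nsmul_eq_mul]
      refine mul_le_mul_of_nonneg_right ?_ hy0.le
      refine (Nat.cast_le.2 (card_filter_le _ _)).trans ?_
      rw [Nat.card_Ioc, Nat.sub_zero]
      linarith [Nat.floor_le hy0.le]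
    have h2 : (primeSum x - primeSum y) * Real.log y ≤ weightedSum x := by
      rw [primeSum, primeSum, ← sum_sdiff_eq_sub (primeSet_mono hyx), sum_mul, weightedSum]
      refine le_trans (sum_le_sum fun p hp => ?_) (sum_le_sum_of_subset_of_nonneg sdiff_subset
        fun p _ _ => mul_nonneg (Nat.cast_nonneg p) (Real.log_natCast_nonneg p))
      rw [Finset.mem_sdiff, mem_primeSet (by linarith), mem_primeSet hy0.le] at hp
      exact mul_le_mul_of_nonneg_left
        (Real.log_le_log hy0 (not_le.1 fun h => hp.2 ⟨hp.1.1, h⟩).le) (Nat.cast_nonneg p)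
    have h3 : primeSum x * Real.log x ≤
        weightedSum x * (1 - Real.log (Real.log x) / Real.log x)⁻¹ +
          x ^ 2 * (Real.log x)⁻¹ + x ^ 2 * x⁻¹ := by
      have h4 : (y + 1) * y * Real.log x = x ^ 2 * (Real.log x)⁻¹ + x ^ 2 * x⁻¹ := by
        rw [hy]
        field_simp
      have h5 := mul_le_mul_of_nonneg_right h1 (by linarith : (0 : ℝ) ≤ Real.log x)
      have h6 : (primeSum x - primeSum y) * Real.log x ≤
          weightedSum x * (1 - Real.log (Real.log x) / Real.log x)⁻¹ := by
        rw [← div_eq_mul_inv, le_div_iff₀ (by linarith), mul_assoc, ← hlogy]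
        exact h2
      linarith
    rw [div_le_iff₀ (by positivity)]
    refine h3.trans (le_of_eq ?_)
    field_simp

end FA.LandauFunction

end
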